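/-
S55 engine E1 — leaf ALG10E (`ALG10EdgeSpec` of `E1/SpecAlg3.lean`): the transition maps commute
with the connecting map `δ'` and with `incl_*`, hence with the edge map.   (helper833)
-/
import Fermat.Agent.S55.E1.SpecAlg3
import Fermat.Agent.S55.H783.Natural

set_option autoImplicit false

open CategoryTheory CategoryTheory.Limits

namespace Fermat.Agent.S55.E1.H833

open Fermat.Agent.S55.E1

noncomputable section

section Generic

variable {k G G' : Type} [CommRing k] [Group G] [Group G'] (π : G' →* G)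
variable {A B X : Rep.{0} k G} {A' B' X' : Rep.{0} k G'}

/-- `tr` commutes with precomposition (generic coefficient ring). -/
lemma ihomPre_trIhom (a : A ⟶ B) (a' : A' ⟶ B') (tA : A' ⟶ Rep.res π A)
    (tB : B' ⟶ Rep.res π B) (ι : Rep.res π X ⟶ X')
    (hsq : ∀ x : A'.V, a.hom (tA.hom x) = tB.hom (a'.hom x)) :
    (Rep.resFunctor π).map (ihomPre a X) ≫ trIhom π tA ι = trIhom π tB ι ≫ ihomPre a' X' := by
  apply Rep.hom_ext
  apply DFunLike.ext
  intro (φ : B.V →ₗ[k] X.V)
  apply LinearMap.ext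
  intro x
  change ι.hom (φ (a.hom (tA.hom x))) = ι.hom (φ (tB.hom (a'.hom x)))
  rw [hsq]

/-- `tr` commutes with the projection onto the image (generic coefficient ring). -/
lemma ihomImageProj_trImage (a : A ⟶ B) (a' : A' ⟶ B') (tA : A' ⟶ Rep.res π A)
    (tB : B' ⟶ Rep.res π B) (ι : Rep.res π X ⟶ X')
    (hsq : ∀ x : A'.V, a.hom (tA.hom x) = tB.hom (a'.hom x)) :
    (Rep.resFunctor π).map (ihomImageProj a X) ≫ trImage π a a' tA tB ι hsq =
      trIhom π tB ι ≫ ihomImageProj a' X' := by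
  apply Rep.hom_ext
  apply DFunLike.ext
  intro (φ : B.V →ₗ[k] X.V)
  apply Subtype.ext
  apply LinearMap.ext
  intro x
  change ι.hom (φ (a.hom (tA.hom x))) = ι.hom (φ (tB.hom (a'.hom x)))
  rw [hsq]

/-- `tr` commutes with the inclusion of the image (generic coefficient ring). -/
lemma trImage_ihomImageIncl (a : A ⟶ B) (a' : A' ⟶ B') (tA : A' ⟶ Rep.res π A)
    (tB : B' ⟶ Rep.res π B) (ι : Rep.res π X ⟶ X')
    (hsq : ∀ x : A'.V, a.hom (tA.hom x) = tB.hom (a'.hom x)) :
    trImage π a a' tA tB ι hsq ≫ ihomImageIncl a' X' =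
      (Rep.resFunctor π).map (ihomImageIncl a X) ≫ trIhom π tA ι := by
  apply Rep.hom_ext
  apply DFunLike.ext
  intro φ
  rfl

end Generic

variable {G G' : Type} [Group G] [Group G'] (π : G' →* G)
variable {N : Rep.{0} ℤ G} {N' : Rep.{0} ℤ G'} (ν : N' ⟶ Rep.res π N)
variable {X : Rep.{0} ℤ G} {X' : Rep.{0} ℤ G'} (ι : Rep.res π X ⟶ X')

/-- The morphism of short complexes `res_π (edgeSC N X) ⟶ edgeSC N' X'`. -/
def edgeΦ : (edgeSC N X).map (Rep.resFunctor π) ⟶ edgeSC N' X' where
  τ₁ := trIhom π ν ι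
  τ₂ := trIhom π (trP π ν) ι
  τ₃ := trEdgeB π ν ι
  comm₁₂ := (ihomPre_trIhom π (stdε N) (stdε N') (trP π ν) ν ι
    (fun x => trP_stdε_apply π ν x)).symm
  comm₂₃ := (ihomImageProj_trImage π (stdι N) (stdι N') (trR π ν) (trP π ν) ι
    (fun r => trR_stdι_apply π ν r)).symm

/-- Morphism form of the second half of ALG10E. -/
lemma map_trEdgeB_incl :
    groupCohomology.map π (trEdgeB π ν ι) 1 ≫ T.coeffMap (ihomImageIncl (stdι N') X') 1 =
      T.coeffMap (ihomImageIncl (stdι N) X) 1 ≫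
        groupCohomology.map π (trIhom π (trR π ν) ι) 1 := by
  refine (groupCohomology.map_comp _ _ _ _ 1).symm.trans ?_
  refine Eq.trans ?_ (groupCohomology.map_comp _ _ _ _ 1)
  exact groupCohomology.map_congr rfl rfl 1

/-- **ALG10E**. -/
theorem alg10Edge : ALG10EdgeSpec := by
  intro G G' _ _ π N N' ν X X' ι b
  constructor
  · have h := Fermat.Agent.S55.H783.δ_naturality_map π (edgeSC_shortExact N X)
      (edgeSC_shortExact N' X') (edgeΦ π ν ι) 1 2 rfl
    have h' := congrArg (fun f => f.hom b) h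
    exact h'.symm
  · have h := map_trEdgeB_incl π ν ι
    have h' := congrArg (fun f => f.hom b) h
    exact h'

end

end Fermat.Agent.S55.E1.H833
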